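import Fermat.Agent.DR.Mazur.Assembly
import Fermat.Agent.DR.S36.Statement
import Fermat.Prelude.Def_WeierstrassCurve_PeuRamifiee

/-!
# The inputs of level lowering at `p` (S39, S40, S44)
-/

set_option autoImplicit false
set_option linter.style.haveILetI false

open WeierstrassCurve WeierstrassCurve.Affine WeierstrassCurve.Affine.Point Polynomial
open scoped WeierstrassCurve.Affine

namespace Fermat.Agent.DR.S39

open Fermat.Agent.S30Wiring ModularCurve Fermat.Agent.DR.S36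

local notation "Qbar" => AlgebraicClosure ℚ
local notation "Γℚ" => (AlgebraicClosure ℚ ≃ₐ[ℚ] AlgebraicClosure ℚ)

/-- **Geometric input at `p`** (`p ∤ M`): let `μ^p = 1 + p v` with `v` a unit fixed by inertia at
`p`, `t` a Hecke polynomial in the `T_ℓ`, `ℓ ∉ S`, killing `S₂(Γ₀(M))`, and `x ∈ J₀(Mp)[p]`
killed by both push-forwards to level `M`, fixed by the elements of inertia fixing `μ`, and
eigenvector of some `T_ℓ`, `ℓ ∉ S`, with eigenvalue `a ≢ ℓ + 1 mod p`. Then inertia acts on `t x`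
through the cyclotomic character. -/
def AtPInput (M p : ℕ) [NeZero M] [NeZero p] [NeZero (M * p)] (S : Finset ℕ) : Prop :=
  letI := heckeModuleBar (M * p)
  ∀ (hMS : ∀ r : ℕ, r.Prime → r ∣ M → r ∈ S) (t : AnemicAlg S),
    anemicEval (N := M) hMS t = 0 →
    ∀ B : ValuationSubring Qbar, B.LiesOverPrime p →
      ∀ μ v : Qbar, μ ^ p = 1 + p * v → B.valuation v = 1 →
        (∀ σ ∈ B.inertiaSubgroupIn ℚ, σ v = v) →
        ∀ (ℓ : ℕ) (hℓ : ℓ.Prime) (hℓS : ℓ ∉ S) (a : ℤ), ¬ (p : ℤ) ∣ a - (ℓ + 1) →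
          ∀ x : JZero (M * p), p • x = 0 →
            PushZero (heckeAlphaBar Qbar M p) x → PushZero (heckeBetaBar Qbar M p) x →
            (∀ σ ∈ B.inertiaSubgroupIn ℚ, σ μ = μ → σ • x = x) →
            anemicIncl S (MvPolynomial.X ⟨⟨ℓ, hℓ⟩, hℓS⟩) • x = a • x →
              ∀ τ ∈ B.inertiaSubgroupIn ℚ, ∀ n : ℕ, (∀ ζ : Qbar, ζ ^ p = 1 → τ ζ = ζ ^ n) →
                τ • (anemicIncl S t • x) = n • (anemicIncl S t • x)

/-- **The final algebraic step at `p`.** -/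
def AtPCore (p : ℕ) [Fact p.Prime] : Prop :=
  ∀ {A J : Type} [CommRing A] [AddCommGroup J] [Module A J] [DistribMulAction Γℚ J]
    [SMulCommClass Γℚ A J] (S : Finset ℕ) (x : ℕ → A)
    (_hlev : ∀ n : ℕ, ∃ L : IntermediateField ℚ Qbar, FiniteDimensional ℚ L ∧
      ∀ σ : Γℚ, (∀ y ∈ L, σ y = y) → ∀ m : J, p ^ n • m = 0 → σ • m = m)
    (_hfrob : ∀ ℓ : ℕ, ℓ.Prime → ℓ ∉ S → ∀ B : ValuationSubring Qbar, B.LiesOverPrime ℓ →
      ∀ σ : Γℚ, B.IsFrobeniusAt σ ℓ → ∀ m : J, (∃ n : ℕ, p ^ n • m = 0) →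
        σ • σ • m - x ℓ • (σ • m) + ℓ • m = 0)
    (χ : A →+* ZMod p) (W : WeierstrassCurve ℤ) (_hΔ : W.Δ ≠ 0) (_hp2 : p ≠ 2)
    (_hsemi : (p : ℤ) ∣ W.Δ → ¬ (p : ℤ) ∣ W.c₄)
    (_hpeu : (W.map (Int.castRingHom ℚ)).IsPeuRamifieeAt p p)
    (hcard : Nat.card (Submodule.torsionBy ℤ
      ((W.map (Int.castRingHom ℚ))⁄(AlgebraicClosure ℚ)).Point p) = p ^ 2)
    (hker : GaloisFactorsThroughFiniteLevel
      (galoisRepModuleEnd (K := AlgebraicClosure ℚ) ℚ (W.map (Int.castRingHom ℚ)) p))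
    (_habs : ((W.map (Int.castRingHom ℚ)).residualGaloisRepOf p hcard
      hker).IsAbsolutelyIrreducible)
    (_hρ : ∀ ℓ : ℕ, ℓ.Prime → ℓ ∉ S → ∀ B : ValuationSubring Qbar, B.LiesOverPrime ℓ →
      ∀ σ : Γℚ, B.IsFrobeniusAt σ ℓ →
        LinearMap.charpoly (((W.map (Int.castRingHom ℚ)).residualGaloisRepOf p hcard hker).ρ σ) =
          X ^ 2 - C (χ (x ℓ)) * X + C (ℓ : ZMod p))
    {m₀ : J} (_hm₀ : m₀ ∈ Mazur.tors J χ) (_hm₀' : m₀ ≠ 0)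
    (B : ValuationSubring Qbar) (_hB : B.LiesOverPrime p) (Kr : AddSubgroup J)
    (_h1 : ∀ m ∈ Mazur.tors J χ, ∀ τ ∈ B.inertiaSubgroupIn ℚ, τ • m - m ∈ Kr)
    (_h2 : ∀ m ∈ Mazur.tors J χ, m ∈ Kr → ∀ τ ∈ B.inertiaSubgroupIn ℚ, ∀ a : ℕ,
      (∀ ζ : Qbar, ζ ^ p = 1 → τ ζ = ζ ^ a) → τ • m = a • m)
    (_hcore : ∀ μ v : Qbar, μ ^ p = 1 + p * v → B.valuation v = 1 →
      (∀ σ ∈ B.inertiaSubgroupIn ℚ, σ v = v) →
      ∀ m ∈ Mazur.tors J χ, (∀ σ ∈ B.inertiaSubgroupIn ℚ, σ μ = μ → σ • m = m) →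
        ∀ τ ∈ B.inertiaSubgroupIn ℚ, ∀ a : ℕ, (∀ ζ : Qbar, ζ ^ p = 1 → τ ζ = ζ ^ a) →
          τ • m = a • m), False

end Fermat.Agent.DR.S39
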