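import Fermat.Agent.DR.S39.Defs
import Fermat.Agent.DR.Ord.Final
import Fermat.Agent.CMP.S36Assembly
import Fermat.Agent.JAN.AnnFinal
import Fermat.Agent.DR.AllInputs

/-!
# Level lowering at `p` from its inputs
-/

set_option autoImplicit false
set_option linter.style.haveILetI false

open WeierstrassCurve WeierstrassCurve.Affine WeierstrassCurve.Affine.Point Polynomial
open scoped WeierstrassCurve.Affine

namespace Fermat.Agent.DR.S39

open Fermat.Agent.S30Wiring Fermat.Agent.S30Assembly ModularCurve Fermat.Agent.DR.S36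
  Fermat.Agent.DR.Mazur Fermat.Agent.DR.ResidualCompare Fermat.Agent.CMP.S35Assembly
  Fermat.Agent.CMP.S36Assembly Fermat.Agent.CMP.PushHecke Fermat.Agent.Jan.HeckeCommute

local notation "Qbar" => AlgebraicClosure ℚ
local notation "Γℚ" => (AlgebraicClosure ℚ ≃ₐ[ℚ] AlgebraicClosure ℚ)

variable {p : ℕ} [hp : Fact p.Prime]

theorem eq_zero_of_bezout {G : Type*} [AddCommGroup G] {y : G} {c u d : ℤ} {p : ℕ}
    (h : (1 : ℤ) = u * c + d * p) (h4 : c • y = 0) (hpy : p • y = 0) : y = 0 := by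
  rw [← one_smul ℤ y, h, add_smul, mul_smul, mul_smul, h4, natCast_zsmul, hpy, smul_zero,
    smul_zero, add_zero]

/-- An element of `J₀(Mp)[p][ker χ]` is killed by the push-forwards if some `t` killing
`S₂(Γ₀(M))` has `χ(t) ≠ 0`. -/
theorem push_eq_zero {M e : ℕ} [NeZero M] [NeZero (M * p)] [NeZero e] (h : M * e ∣ M * p)
    {S : Finset ℕ} (hNS : ∀ r : ℕ, r.Prime → r ∣ M * p → r ∈ S)
    (hMS : ∀ r : ℕ, r.Prime → r ∣ M → r ∈ S)
    (hT : ∀ (ℓ : ℕ) [NeZero ℓ], ℓ.Prime → ¬ ℓ ∣ M * p → ∀ x, push Qbar M (M * p) e h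
      (heckeOperatorAlong Qbar (M * p) ℓ x) =
        heckeOperatorAlong Qbar M ℓ (push Qbar M (M * p) e h x))
    (χ : AnemicAlg S →+* ZMod p) {t : AnemicAlg S} (ht : anemicEval (N := M) hMS t = 0)
    (hχt : χ t ≠ 0) {x : JZero (M * p)} (hpx : p • x = 0)
    (hx : ∀ s : AnemicAlg S, χ s = 0 →
      (letI := heckeModuleBar (M * p); anemicIncl S s • x = 0)) :
    push Qbar M (M * p) e h x = 0 := by
  obtain ⟨c, hc⟩ := ZMod.intCast_surjective (χ t)
  obtain ⟨u, hu⟩ := ZMod.intCast_surjective (χ t)⁻¹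
  have h1 : (letI := heckeModuleBar (M * p); anemicIncl S t • x) = c • x := by
    letI := heckeModuleBar (M * p)
    have h2 := hx (t - (c : AnemicAlg S)) (by rw [map_sub, map_intCast, hc, sub_self])
    rw [map_sub, map_intCast, sub_smul, sub_eq_zero, Int.cast_smul_eq_zsmul] at h2
    exact h2
  set y : JZero M := push Qbar M (M * p) e h x with hy
  have hpy : p • y = 0 := by
    rw [hy, ← map_nsmul]
    exact (congrArg _ hpx).trans (map_zero _)
  have h2 := push_anemic h hNS hT t x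
  have h3 : (letI := heckeModuleBar M; anemicIncl S t • y) = 0 :=
    JAN.AnnFinal.smul_eq_zero_of_torsion hMS ht hp.out.ne_zero hpy
  have h4 : c • y = 0 := by
    rw [hy, ← map_zsmul]
    exact (congrArg _ h1.symm).trans (h2.trans h3)
  have h5 : ((c * u : ℤ) : ZMod p) = ((1 : ℤ) : ZMod p) := by
    push_cast
    rw [hu, hc, mul_inv_cancel₀ hχt]
  rw [ZMod.intCast_eq_intCast_iff_dvd_sub] at h5
  obtain ⟨d, hd⟩ := h5
  have h6 : (1 : ℤ) = u * c + d * p := by linarith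
  exact eq_zero_of_bezout h6 h4 hpy

/-- **Level lowering at `p`** for an elliptic curve, from its inputs. -/
theorem atpGen (hcore : AtPCore p) (hp2 : p ≠ 2) (W : WeierstrassCurve ℤ) (hΔ : W.Δ ≠ 0)
    (hsemi : (p : ℤ) ∣ W.Δ → ¬ (p : ℤ) ∣ W.c₄)
    (hpeu : (W.map (Int.castRingHom ℚ)).IsPeuRamifieeAt p p)
    (hirr : W.ModRepIsIrreducible p) {M : ℕ} [NeZero M] [NeZero p] [NeZero (M * p)]
    (hpM : ¬ p ∣ M)
    (hIn : ∀ S : Finset ℕ, p ∈ S → (∀ r : ℕ, r.Prime → r ∣ M * p → r ∈ S) → AtPInput M p S)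
    (hres : W.IsResiduallyModularOfLevel p (M * p)) : W.IsResiduallyModularOfLevel p M := by
  classical
  have I := DR.allInputs
  have hell := EllTorsion.isElliptic_map_of_Δ_ne_zero hΔ
  have hcard := EllTorsion.card_torsionBy_rat (W.map (Int.castRingHom ℚ)) hp.out.ne_zero
  have hker := EllTorsion.galoisRepModuleEnd_factorsThroughFiniteLevel
    (W.map (Int.castRingHom ℚ)) hp.out.ne_zero
  have h29 : S29Prop := fun hf _ hp' k _ _ φ => GAL.Final.s29 I hf hp' φ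
  set ρ := (W.map (Int.castRingHom ℚ)).residualGaloisRepOf p hcard hker with hρdef
  have habs : ρ.IsAbsolutelyIrreducible :=
    isAbsolutelyIrreducible_of_modRepIsIrreducible hp2 W hΔ hcard hker hirr
  set S : Finset ℕ := W.Δ.natAbs.primeFactors ∪ (M * p).primeFactors ∪ {p} with hS
  have hpS : p ∈ S := by simp [hS]
  have hNS : ∀ r : ℕ, r.Prime → r ∣ M * p → r ∈ S := by
    intro r hr hrN
    simp only [hS, Finset.mem_union, Nat.mem_primeFactors]
    exact Or.inl (Or.inr ⟨hr, hrN, NeZero.ne _⟩)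
  have hΔS : ∀ r : ℕ, r.Prime → (r : ℤ) ∣ W.Δ → r ∈ S := by
    intro r hr hrΔ
    simp only [hS, Finset.mem_union, Nat.mem_primeFactors]
    exact Or.inl (Or.inl ⟨hr, Int.natCast_dvd.mp hrΔ, fun h => hΔ (Int.natAbs_eq_zero.mp h)⟩)
  have hMS : ∀ r : ℕ, r.Prime → r ∣ M → r ∈ S := fun r hr h => hNS r hr (h.mul_right p)
  let χ : AnemicAlg S →+* ZMod p := ellChar W p S
  have hχ : ∀ t : AnemicAlg S, anemicEval hNS t = 0 → χ t = 0 := fun t ht =>
    ellChar_eq_zero W hpS hNS hΔS hres t ht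
  by_cases hdesc : ∀ t : AnemicAlg S, anemicEval (N := M) hMS t = 0 → χ t = 0
  · -- level lowering
    obtain ⟨f, 𝔪, hf, h𝔪, hpm, hfa⟩ := exists_eigenform_of_mod hMS χ hdesc
    refine isResiduallyModularOfLevel_of_almost h29 W hΔ hcard hker (NeZero.ne M) f hf 𝔪 h𝔪 hpm S
      fun ℓ hℓ _ _ _ hℓS => ?_
    exact hfa ℓ hℓ hℓS (W.apOfModel ℓ) (ellChar_X W S ℓ hℓ hℓS)
  exfalso
  push Not at hdesc
  obtain ⟨t, ht, hχt⟩ := hdesc
  -- the Hecke module
  letI := heckeModuleBar (M * p)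
  have G := GAL.Final.galInputs I (M * p) p hp.out
  haveI : SMulCommClass Γℚ HeckeAlg (JZero (M * p)) := G.galois_hecke
  letI : Module (AnemicAlg S) (JZero (M * p)) :=
    Module.compHom (JZero (M * p)) (anemicIncl S).toRingHom
  have hsmul : ∀ (a : AnemicAlg S) (x : JZero (M * p)), a • x = anemicIncl S a • x :=
    fun _ _ => rfl
  haveI : SMulCommClass Γℚ (AnemicAlg S) (JZero (M * p)) :=
    ⟨fun g a x => by rw [hsmul, hsmul, smul_comm]⟩
  have hspec : SpecializationExists (K := ℚ) (L := Qbar) (M * p) p (JZero (M * p)) :=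
    G.specialization G.galois_hecke
  have hfrob0 := frobeniusQuadratic_of_specialization hspec
  have hsm : ∀ x : JZero (M * p), ∃ L : IntermediateField ℚ Qbar, FiniteDimensional ℚ L ∧
      ∀ g : Γℚ, (∀ y ∈ L, g y = y) → g • x = x := G.smooth
  have hlev := fun n : ℕ => finite_level_of_smooth (J := JZero (M * p)) hsm n (G.finite n)
  have hdvd : ∀ ℓ : ℕ, ℓ.Prime → ℓ ∉ S → ¬ ℓ ∣ M * p * p := by
    intro ℓ hℓ hℓS h
    rcases (Nat.Prime.dvd_mul hℓ).mp h with h | h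
    · exact hℓS (hNS ℓ hℓ h)
    · rw [(Nat.prime_dvd_prime_iff_eq hℓ Fact.out).mp h] at hℓS
      exact hℓS hpS
  have hfrob : ∀ ℓ : ℕ, ℓ.Prime → ℓ ∉ S → ∀ B : ValuationSubring Qbar, B.LiesOverPrime ℓ →
      ∀ σ : Γℚ, B.IsFrobeniusAt σ ℓ → ∀ m : JZero (M * p), (∃ n : ℕ, p ^ n • m = 0) →
        σ • σ • m - gens S ℓ • (σ • m) + ℓ • m = 0 := by
    intro ℓ hℓ hℓS B hB σ hσ m hm
    have h := hfrob0 ℓ hℓ (hdvd ℓ hℓ hℓS) B hB σ hσ m hm
    rw [gens_eq ℓ hℓ hℓS, hsmul, anemicIncl, MvPolynomial.rename_X]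
    exact h
  have hρ : ∀ ℓ : ℕ, ℓ.Prime → ℓ ∉ S → ∀ B : ValuationSubring Qbar, B.LiesOverPrime ℓ →
      ∀ σ : Γℚ, B.IsFrobeniusAt σ ℓ →
        LinearMap.charpoly (ρ.ρ σ) = X ^ 2 - C (χ (gens S ℓ)) * X + C (ℓ : ZMod p) := by
    intro ℓ hℓ hℓS B hB σ hσ
    have hgood : W.IsGoodPrimeFor ℓ := fun h => hℓS (hΔS ℓ hℓ h)
    have hℓp : ℓ ≠ p := by rintro rfl; exact hℓS hpS
    rw [gens_eq ℓ hℓ hℓS, ellChar_X, hρdef,
      EllRed.residualGaloisRepOf_charpoly_frobenius EllRed.frobCharpolyInputAll hcard hker hℓ hℓp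
        hgood B hB hσ]
  obtain ⟨x₀, hx₀, hpx₀, hx₀χ⟩ := exists_torsion_of_lattice hNS (G.lattice S) G.finite χ hχ
  obtain ⟨ℓ, hℓ, hℓS, hneis⟩ := exists_not_eisenstein ρ habs S (fun ℓ => χ (gens S ℓ)) hρ
  obtain ⟨B, hB⟩ := FrobExists.exists_liesOverPrime Qbar hp.out
  obtain ⟨Kr, hKr1, hKr2⟩ := DR.Ord.exists_kr (M := M) hpM B hB
  -- the push-forwards vanish
  have hpushα : ∀ m ∈ tors (JZero (M * p)) χ, PushZero (heckeAlphaBar Qbar M p) m := by
    intro m hm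
    refine pushZero_of_push (N := M) (M := M * p) (e := 1) (by rw [mul_one]; exact dvd_mul_right _ _)
      (heckeAlphaBar_eq_degen Qbar M p) ?_
    exact push_eq_zero _ hNS hMS (fun ℓ _ hℓ hℓM x => push_alpha_hecke Qbar hℓ hℓM _ x) χ ht hχt
      hm.1 hm.2
  have hpushβ : ∀ m ∈ tors (JZero (M * p)) χ, PushZero (heckeBetaBar Qbar M p) m := by
    intro m hm
    refine pushZero_of_push (N := M) (M := M * p) (e := p) dvd_rfl
      (heckeBetaBar_eq_degen Qbar M p) ?_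
    exact push_eq_zero _ hNS hMS (fun ℓ _ hℓ hℓM x => push_beta_hecke Qbar hℓ hℓM _ x) χ ht hχt
      hm.1 hm.2
  refine hcore S (gens S) hlev hfrob χ W hΔ hp2 hsemi hpeu hcard hker habs hρ (m₀ := x₀)
    ⟨hpx₀, hx₀χ⟩ hx₀ B hB (Kr 1) ?_ ?_ ?_
  · intro m hm τ hτ
    exact hKr1 1 m (by rw [pow_one]; exact hm.1) τ hτ
  · intro m hm hmK τ hτ a ha
    exact hKr2 1 le_rfl m hmK hm.1 (hpushα m hm) (hpushβ m hm) τ hτ a ha
  · intro μ v hμ hv hvI m hm hfix τ hτ a ha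
    obtain ⟨b, hb⟩ := ZMod.intCast_surjective (χ (gens S ℓ))
    have hb' : ¬ (p : ℤ) ∣ b - (ℓ + 1) := by
      rw [← ZMod.intCast_zmod_eq_zero_iff_dvd]
      push_cast
      rw [hb, sub_eq_zero]
      exact hneis
    obtain ⟨u, hu⟩ := ZMod.intCast_surjective (χ t)⁻¹
    obtain ⟨c, hc⟩ := ZMod.intCast_surjective (χ t)
    have hum : u • m ∈ tors (JZero (M * p)) χ := zsmul_mem hm u
    have htum : t • u • m = m := by
      rw [smul_of_mem_tors hum hc.symm, smul_smul]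
      have h1 : ((c * u : ℤ) : ZMod p) = ((1 : ℤ) : ZMod p) := by
        push_cast
        rw [hu, hc, mul_inv_cancel₀ hχt]
      rw [ZMod.intCast_eq_intCast_iff_dvd_sub] at h1
      obtain ⟨d, hd⟩ := h1
      have h2 : c * u = 1 - d * p := by linarith
      rw [h2, sub_smul, one_smul, mul_smul, natCast_zsmul, hm.1, smul_zero, sub_zero]
    have hTm : anemicIncl S (MvPolynomial.X ⟨⟨ℓ, hℓ⟩, hℓS⟩) • (u • m) = b • (u • m) := by
      have := smul_of_mem_tors hum hb.symm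
      rw [gens_eq ℓ hℓ hℓS] at this
      exact this
    have h := hIn S hpS hNS hMS t ht B hB μ v hμ hv hvI ℓ hℓ hℓS b hb' (u • m) hum.1
      (hpushα _ hum) (hpushβ _ hum) (fun σ hσ hσμ => by
        have h1 : σ • (u • m) = u • (σ • m) :=
          map_zsmul (DistribSMul.toAddMonoidHom (JZero (M * p)) σ) u m
        rw [h1, hfix σ hσ hσμ]) hTm τ hτ a ha
    rw [← hsmul, htum] at h
    exact h

end Fermat.Agent.DR.S39
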