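import Fermat.Agent.DR.AtP.SpecMono
import Fermat.Agent.DR.AtP.WildInst
import Fermat.Agent.DR.AtP.AtPCoreProof

/-!
# S39 for semistable models, S44
-/

set_option autoImplicit false

noncomputable section

open AlgebraicCurve ModularCurve IntermediateField
open Fermat.Agent.RR Fermat.Agent.JRED Fermat.Agent.DR.Mono Fermat.Agent.DR.Mod
  Fermat.Agent.Q2.Ord Fermat.Agent.JRED.AL

namespace Fermat.Agent.DR.S39

local notation "Qbar" => AlgebraicClosure ℚ

/-- **Monodromy at `p`.** -/
theorem monoP {M p : ℕ} [NeZero M] [NeZero p] : AtP.MonoP M p := by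
  intro hpM A hA k _ _ _ _ π w _ _ _ S _ μ v hμ hv hvI f hf hfix hdiv P Q hP hP' hQ hQ' wP wQ
    hwP hwQ
  have hp : p.Prime := Fact.out
  have hj0 : jRed k M ≠ 0 := fun h0 => jRed_transcendental k M (h0 ▸ isAlgebraic_zero)
  have hdeg : DegreeInput M k := degreeInput' (NeZero.ne M) hpM
  have hgood : GoodReduction M k := goodReduction S.surj hp (NeZero.ne M) hpM
  obtain ⟨r, hr⟩ := exists_placeRed_modular S.surj hdeg hgood
  obtain ⟨ζ, hζ⟩ := HasEnoughRootsOfUnity.exists_primitiveRoot Qbar p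
  have h := AtP.monoP S hpM hdeg hgood hr hA ⟨hζ, hμ, hv, hvI⟩ hf hfix hdiv
    (s := P) (t := Q) ((Fermat.FF.mem_iff_ord P hj0).mpr hP) hP'
    ((Fermat.FF.mem_iff_ord Q hj0).mpr hQ) hQ' (ws := wP) (wt := wQ) hwP hwQ
  exact h

/-- **The inputs of level lowering at `p`.** -/
theorem atPInputs : AtPInputs := AtP.atPInputs_of_monoP fun _ _ _ _ _ _ => monoP

/-- **S39 for semistable models**: level lowering at `p`. -/
theorem s39Prop : Descent.S39Prop := s39_of atPInputs fun p _ => AtP.atPCore p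

/-- **S44.** -/
theorem s44Prop : S43Glue.S44Prop := s44_of s39Prop

end Fermat.Agent.DR.S39
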