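import Fermat.Agent.DR.S39.General
import Fermat.Agent.DR.AtP.EllZero
import Fermat.Agent.DR.AtP.EllZeroC

/-!
# S39 and S40
-/

set_option autoImplicit false

noncomputable section

open AlgebraicCurve ModularCurve

namespace Fermat.Agent.DR.S39

/-- The Hecke operators on the elliptic points of order `3`. -/
theorem ellThree (M ℓ : ℕ) [NeZero M] [NeZero ℓ] (hℓ : ℓ.Prime) (hM : ¬ ℓ ∣ M) :
    AtP.EllThree M ℓ := by
  intro hα hβ _ P hP h3 Q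
  exact AtP.EllC.three_dvd_correspondence_sub M ℓ hℓ hM hβ hα
    (fun _ h h' => AtP.Ell.restrict_eq_of_ord_beta h h' hα hβ) hP h3 Q

/-- **S39.** -/
theorem s39 (W : WeierstrassCurve ℤ) (hΔ : W.Δ ≠ 0)
    {p : ℕ} (hp : p.Prime) (hp2 : p ≠ 2)
    (hsemi : (p : ℤ) ∣ W.Δ → ¬ (p : ℤ) ∣ W.c₄)
    (hirr : W.ModRepIsIrreducible p)
    (hfin : (W.map (Int.castRingHom ℚ)).IsPeuRamifieeAt p p)
    {M : ℕ} (hM : 0 < M) (hpM : p ∣ M) (hp2M : ¬ p ^ 2 ∣ M)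
    (hmod : W.IsResiduallyModularOfLevel p M) :
    W.IsResiduallyModularOfLevel p (M / p) :=
  s39_general (fun M ℓ _ _ => ellThree M ℓ) W hΔ hp hp2 hsemi hirr hfin hM hpM hp2M hmod

/-- **S40.** -/
theorem s40 (W : WeierstrassCurve ℤ) (hΔ : W.Δ ≠ 0)
    {p : ℕ} (hp : p.Prime) (hp2 : p ≠ 2)
    (hgood : W.IsGoodPrimeFor p)
    (hirr : W.ModRepIsIrreducible p)
    {M : ℕ} (hM : 0 < M) (hpM : p ∣ M) (hp2M : ¬ p ^ 2 ∣ M)
    (hmod : W.IsResiduallyModularOfLevel p M) :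
    W.IsResiduallyModularOfLevel p (M / p) :=
  s40_general (fun M ℓ _ _ => ellThree M ℓ) W hΔ hp hp2 hgood hirr hM hpM hp2M hmod

end Fermat.Agent.DR.S39
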