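import Fermat.Agent.DR.S39.Final
import Fermat.Agent.DR.AtP.SpecThree

/-!
# S39 and S40 in their frozen generality

From the monodromy at `p`, at all levels prime to `p`; at `p = 3` the action of the Hecke operators
on the elliptic points of order `3` (`EllThree`) replaces the auxiliary prime.
-/

set_option autoImplicit false

noncomputable section

open WeierstrassCurve WeierstrassCurve.Affine WeierstrassCurve.Affine.Point
open scoped WeierstrassCurve.Affine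

namespace Fermat.Agent.DR.S39

/-- `AtPInput` for `p ≥ 5` and all levels. -/
theorem atPInput_ge5 {M p : ℕ} [NeZero M] [NeZero p] [NeZero (M * p)] (hp : p.Prime)
    (hp5 : 5 ≤ p) (hpM : ¬ p ∣ M) {S : Finset ℕ} (hNS : ∀ r : ℕ, r.Prime → r ∣ M * p → r ∈ S) :
    AtPInput M p S := by
  refine AtP.atPInput_of_spec (E := 12) (AtP.specP_twelve monoP) hp ?_ hpM hNS
  intro h
  have h1 : p ∣ 12 := by exact_mod_cast h
  have h2 : p ∣ 2 * 2 * 3 := h1
  rcases hp.dvd_mul.mp h2 with h | h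
  · rcases hp.dvd_mul.mp h with h | h <;> have := Nat.le_of_dvd (by norm_num) h <;> omega
  · have := Nat.le_of_dvd (by norm_num) h; omega

/-- `AtPInput` for `p = 3` and all levels. -/
theorem atPInput_three {M p : ℕ} [NeZero M] [NeZero p] [NeZero (M * p)] (hp : p.Prime)
    (hp3 : p = 3) (hE : ∀ (ℓ : ℕ) [NeZero ℓ], ℓ.Prime → ¬ ℓ ∣ M → AtP.EllThree M ℓ)
    (hpM : ¬ p ∣ M) {S : Finset ℕ} (hNS : ∀ r : ℕ, r.Prime → r ∣ M * p → r ∈ S) :
    AtPInput M p S := by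
  refine AtP.atPInput_of_spec (E := 4)
    (AtP.specP_three hp3 monoP fun ℓ _ hℓ hℓM => hE ℓ hℓ fun h => hℓM (h.mul_right p)) hp ?_ hpM hNS
  intro h
  have h1 : p ∣ 4 := by exact_mod_cast h
  rw [hp3] at h1
  norm_num at h1

/-- **S39 from `AtPInput`** at the same level. -/
theorem s39_of_atPInput (W : WeierstrassCurve ℤ) (hΔ : W.Δ ≠ 0)
    {p : ℕ} (hp : p.Prime) (hp2 : p ≠ 2)
    (hIn : ∀ (M : ℕ) [NeZero M] [NeZero p] [NeZero (M * p)] (S : Finset ℕ), ¬ p ∣ M → p ∈ S →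
      (∀ r : ℕ, r.Prime → r ∣ M * p → r ∈ S) → AtPInput M p S)
    (hsemi : (p : ℤ) ∣ W.Δ → ¬ (p : ℤ) ∣ W.c₄)
    (hirr : W.ModRepIsIrreducible p)
    (hfin : (W.map (Int.castRingHom ℚ)).IsPeuRamifieeAt p p)
    {M : ℕ} (hM : 0 < M) (hpM : p ∣ M) (hp2M : ¬ p ^ 2 ∣ M)
    (hmod : W.IsResiduallyModularOfLevel p M) :
    W.IsResiduallyModularOfLevel p (M / p) := by
  have hpf : Fact p.Prime := ⟨hp⟩
  obtain ⟨M, rfl⟩ := hpM
  rw [Nat.mul_div_cancel_left _ hp.pos]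
  rw [mul_comm p M] at hmod
  have hM : M ≠ 0 := by
    rintro rfl
    rw [mul_zero] at hM
    exact lt_irrefl 0 hM
  have hpM : ¬ p ∣ M := by
    rintro ⟨c, rfl⟩
    exact hp2M ⟨c, by ring⟩
  have i0 : NeZero p := ⟨hp.ne_zero⟩
  have i1 : NeZero M := ⟨hM⟩
  have i2 : NeZero (M * p) := ⟨mul_ne_zero hM hp.ne_zero⟩
  exact atpGen (AtP.atPCore p) hp2 W hΔ hsemi hfin hirr hpM
    (fun S hpS hNS => hIn M S hpM hpS hNS) hmod

/-- A model with good reduction at `p` is peu ramifié at `p`. -/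
theorem isPeuRamifieeAt_of_good {W : WeierstrassCurve ℤ} {p : ℕ}
    (hgood : W.IsGoodPrimeFor p) : (W.map (Int.castRingHom ℚ)).IsPeuRamifieeAt p p := by
  unfold WeierstrassCurve.IsPeuRamifieeAt
  have h3 : (W.map (Int.castRingHom ℚ)).Δ = ((W.Δ : ℤ) : ℚ) := by
    rw [WeierstrassCurve.map_Δ]; rfl
  rw [h3, padicValRat.of_int, padicValInt.eq_zero_of_not_dvd hgood]
  exact dvd_zero _

/-- **S39**, from the action of the Hecke operators on the elliptic points of order `3`. -/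
theorem s39_general
    (hE : ∀ (M ℓ : ℕ) [NeZero M] [NeZero ℓ], ℓ.Prime → ¬ ℓ ∣ M → AtP.EllThree M ℓ)
    (W : WeierstrassCurve ℤ) (hΔ : W.Δ ≠ 0)
    {p : ℕ} (hp : p.Prime) (hp2 : p ≠ 2)
    (hsemi : (p : ℤ) ∣ W.Δ → ¬ (p : ℤ) ∣ W.c₄)
    (hirr : W.ModRepIsIrreducible p)
    (hfin : (W.map (Int.castRingHom ℚ)).IsPeuRamifieeAt p p)
    {M : ℕ} (hM : 0 < M) (hpM : p ∣ M) (hp2M : ¬ p ^ 2 ∣ M)
    (hmod : W.IsResiduallyModularOfLevel p M) :
    W.IsResiduallyModularOfLevel p (M / p) := by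
  refine s39_of_atPInput W hΔ hp hp2 (fun M _ _ _ S hpM _ hNS => ?_) hsemi hirr hfin hM hpM hp2M
    hmod
  rcases Nat.lt_or_ge p 5 with h5 | h5
  · have hp3 : p = 3 := by
      have h1 := hp.two_le
      have h4 : p ≠ 4 := by rintro rfl; norm_num at hp
      omega
    exact atPInput_three hp hp3 (fun ℓ _ hℓ hℓM => hE M ℓ hℓ hℓM) hpM hNS
  · exact atPInput_ge5 hp h5 hpM hNS

/-- **S40**, from the action of the Hecke operators on the elliptic points of order `3`. -/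
theorem s40_general
    (hE : ∀ (M ℓ : ℕ) [NeZero M] [NeZero ℓ], ℓ.Prime → ¬ ℓ ∣ M → AtP.EllThree M ℓ)
    (W : WeierstrassCurve ℤ) (hΔ : W.Δ ≠ 0)
    {p : ℕ} (hp : p.Prime) (hp2 : p ≠ 2)
    (hgood : W.IsGoodPrimeFor p)
    (hirr : W.ModRepIsIrreducible p)
    {M : ℕ} (hM : 0 < M) (hpM : p ∣ M) (hp2M : ¬ p ^ 2 ∣ M)
    (hmod : W.IsResiduallyModularOfLevel p M) :
    W.IsResiduallyModularOfLevel p (M / p) :=
  s39_general hE W hΔ hp hp2 (fun h => absurd h hgood) hirr (isPeuRamifieeAt_of_good hgood) hM hpM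
    hp2M hmod

end Fermat.Agent.DR.S39
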