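import Fermat.Agent.DR.S39.Assembly
import Fermat.Agent.DR.S38.Statement
import Fermat.Agent.DR.S43Glue

/-!
# S39 (for semistable models), S44 and S43 from their inputs
-/

set_option autoImplicit false

open WeierstrassCurve WeierstrassCurve.Affine WeierstrassCurve.Affine.Point
open scoped WeierstrassCurve.Affine

namespace Fermat.Agent.DR.S39

open Fermat.Agent.Descent Fermat.Agent.DR.S38

/-- The geometric input at `p`, at rigid levels only. -/
def AtPInputs : Prop :=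
  ∀ (M p : ℕ) [NeZero M] [NeZero p] [NeZero (M * p)] (S : Finset ℕ), p.Prime → p ≠ 2 →
    DR.S36.Rigid M → ¬ p ∣ M → p ∈ S → (∀ r : ℕ, r.Prime → r ∣ M * p → r ∈ S) → AtPInput M p S

/-- **S39 (semistable models) from its inputs.** -/
theorem s39_of (hIn : AtPInputs) (hcore : ∀ (p : ℕ) [Fact p.Prime], AtPCore p) : S39Prop := by
  intro W hΔ p hp hp2 hW hirr hpeu N hN hpN hp2N hres
  have hpf : Fact p.Prime := ⟨hp⟩
  obtain ⟨M, rfl⟩ := hpN
  rw [Nat.mul_div_cancel_left _ hp.pos]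
  rw [mul_comm p M] at hres
  have hM : M ≠ 0 := by
    rintro rfl
    rw [mul_zero] at hN
    exact lt_irrefl 0 hN
  have hpM : ¬ p ∣ M := by
    rintro ⟨c, rfl⟩
    exact hp2N ⟨c, by ring⟩
  have hD : M * p * W.Δ.natAbs ≠ 0 :=
    mul_ne_zero (mul_ne_zero hM hp.ne_zero) (Int.natAbs_ne_zero.mpr hΔ)
  obtain ⟨r, hr, hr12, hrD, haux⟩ := auxExists p hp2 W hΔ hW hirr _ hD
  have hrM : ¬ r ∣ M := fun h => hrD ((h.mul_right p).mul_right _)
  have hrp : r ≠ p := fun h => hrD ((Dvd.intro_left M (h ▸ rfl)).mul_right _)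
  have hrΔ : W.IsGoodPrimeFor r := fun h => hrD ((Int.natCast_dvd.mp h).mul_left _)
  have hMr : M * r ≠ 0 := mul_ne_zero hM hr.ne_zero
  have i0 : NeZero p := ⟨hp.ne_zero⟩
  have i1 : NeZero (M * r) := ⟨hMr⟩
  have i2 : NeZero (M * r * p) := ⟨mul_ne_zero hMr hp.ne_zero⟩
  have hpMr : ¬ p ∣ M * r := by
    intro h
    rcases hp.dvd_mul.mp h with h | h
    · exact hpM h
    · exact hrp ((Nat.prime_dvd_prime_iff_eq hp hr).mp h).symm
  have hres' : W.IsResiduallyModularOfLevel p (M * r * p) :=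
    Oldform.isResiduallyModularOfLevel_of_dvd (NeZero.ne _) ⟨r, by ring⟩ hres
  have hrig : DR.S36.Rigid (M * r) := rigid_of_prime hr hr12 (dvd_mul_left r M)
  exact remove_aux hΔ hM hr hrM hrp hrΔ haux
    (atpGen (hcore p) hp2 W hΔ (hW p hp) hpeu hirr hpMr
      (fun S hpS hNS => hIn (M * r) p S hp hp2 hrig hpMr hpS hNS) hres')

open FreyPackage FreyPackage.AgentFrey in
/-- `ModularRepOfLevel` in terms of the semistable model. -/
theorem freyCurveInt_isResiduallyModularOfLevel (P : FreyPackage) {N : ℕ} (hN : N ≠ 0)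
    (h : P.ModularRepOfLevel N) : P.freyCurveInt.IsResiduallyModularOfLevel P.p N := by
  classical
  have hpf : Fact P.p.Prime := ⟨P.pp⟩
  obtain ⟨f, W, 𝔪, hf, hW, h𝔪, hp𝔪, hcong⟩ := h
  have hΔ := integralModel_Δ_ne_zero P hW
  refine of_almost_all (freyCurveInt_Δ_ne_zero P) hN hf h𝔪 hp𝔪
    (N.primeFactors ∪ {P.p} ∪ W.Δ.natAbs.primeFactors ∪ P.freyCurveInt.Δ.natAbs.primeFactors) ?_
  intro ℓ hℓ hℓD
  simp only [Finset.mem_union, Finset.mem_singleton, Nat.mem_primeFactors, not_or, hℓ, true_and,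
    not_and, Ne, not_not] at hℓD
  obtain ⟨⟨⟨h1, h2⟩, h3⟩, h4⟩ := hℓD
  have hg : W.IsGoodPrimeFor ℓ := fun h => hΔ (Int.natAbs_eq_zero.mp (h3 (Int.natCast_dvd.mp h)))
  have hg' : P.freyCurveInt.IsGoodPrimeFor ℓ := fun h => freyCurveInt_Δ_ne_zero P
    (Int.natAbs_eq_zero.mp (h4 (Int.natCast_dvd.mp h)))
  obtain ⟨a, ha, ha'⟩ := hcong ℓ hℓ hg (fun h => hN (h1 h)) h2
  refine ⟨a, ha, ?_⟩
  rwa [VarChange.apOfModel_eq_of_isIntegralModelOf (isIntegralModelOf P) hW hℓ hg' hg]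

open FreyPackage FreyPackage.AgentFrey in
/-- **S44 from S39.** -/
theorem s44_of (h39 : S39Prop) : S43Glue.S44Prop := by
  intro P N hcond hpN hirr hmod
  have hp2 : P.p ≠ 2 := by have := P.hp5; omega
  refine ⟨N / P.p, Nat.div_dvd_of_dvd hpN, ?_, ?_⟩
  · intro hd
    refine hcond.sq_not_dvd P.pp ?_
    obtain ⟨k, hk⟩ := hpN
    rw [hk, Nat.mul_div_cancel_left _ P.hppos] at hd
    rw [hk, pow_two]
    exact Nat.mul_dvd_mul_left _ hd
  · refine modularRepOfLevel_of_isResiduallyModularOfLevel P (isIntegralModelOf P) ?_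
    exact h39 P.freyCurveInt (freyCurveInt_Δ_ne_zero P) P.pp hp2 (isSemistableModel P)
      ((VarChange.modRepIsIrreducible_iff_of_isIntegralModelOf (isIntegralModelOf P) P.p).2 hirr)
      (padicValInt_freyCurveInt_Δ P) hcond.pos hpN (hcond.sq_not_dvd P.pp)
      (freyCurveInt_isResiduallyModularOfLevel P hcond.pos.ne' hmod)

open FreyPackage FreyPackage.AgentFrey in
/-- **S43 from S38.** -/
theorem s43_of_s38 (h38 : S38Prop) : S43Glue.S43Prop := by
  intro P N q hcond hq hq2 hqp hqN hirr hmod hunr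
  have hpf : Fact P.p.Prime := ⟨P.pp⟩
  have hp2 : P.p ≠ 2 := by have := P.hp5; omega
  have hΔ := freyCurveInt_Δ_ne_zero P
  have hW := isIntegralModelOf P
  have hell := EllTorsion.isElliptic_map_of_Δ_ne_zero hΔ
  have hcard := EllTorsion.card_torsionBy_rat (P.freyCurveInt.map (Int.castRingHom ℚ)) P.pp.ne_zero
  have hker := EllTorsion.galoisRepModuleEnd_factorsThroughFiniteLevel
    (P.freyCurveInt.map (Int.castRingHom ℚ)) P.pp.ne_zero
  have hunrW : ((P.freyCurveInt.map (Int.castRingHom ℚ)).residualGaloisRepOf P.p hcard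
      hker).IsUnramifiedAt q := by
    have h := (VarChange.galoisRepUnramifiedAt_iff_of_isIntegralModelOf hW P.p q).mpr hunr
    intro A hA σ hσ
    exact LinearMap.ext fun x => h A hA σ hσ x
  have hsq : Squarefree N := by
    rw [Nat.squarefree_iff_prime_squarefree]
    intro r hr h
    exact hcond.sq_not_dvd hr (by rwa [sq])
  refine ⟨N / q, Nat.div_dvd_of_dvd hqN, ?_, ?_⟩
  · intro hd
    refine hcond.sq_not_dvd hq ?_
    obtain ⟨k, hk⟩ := hqN
    rw [hk, Nat.mul_div_cancel_left _ hq.pos] at hd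
    rw [hk, pow_two]
    exact Nat.mul_dvd_mul_left _ hd
  · refine modularRepOfLevel_of_isResiduallyModularOfLevel P hW ?_
    exact h38 P.p hp2 P.freyCurveInt hΔ (isSemistableModel P) hcard hker
      ((VarChange.modRepIsIrreducible_iff_of_isIntegralModelOf hW P.p).2 hirr) N q hq hqp hqN
      (hcond.sq_not_dvd hq) hsq hunrW
      (freyCurveInt_isResiduallyModularOfLevel P hcond.pos.ne' hmod)

end Fermat.Agent.DR.S39
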